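/-
Brick KL-A (programme MW, S17), file 1: LOCAL estimates at one absolute value.

Everything here is about ONE absolute value `v : AbsoluteValue K ℝ` on a field `K`
(archimedean form: constants are sums; nonarchimedean form: constants are suprema).

* `abv_eval_le_sum_of_le_one`, `IsNonarchimedean.abv_eval_le_of_le_one`:
  `v (p.eval y) ≤ (sum / sup of the v (coeff))` when all `v (y i) ≤ 1`.
* `abv_le_of_monic_relation`, `abv_le_of_monic_relation_nonarch`:
  a root `z` of `z^k + ∑ i < k, a i * z^i = 0` has `v z ≤ B` as soon as `1 ≤ B` and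
  `∑ v (a i) ≤ B` (resp. all `v (a i) ≤ B`).
* `abv_le_of_dehomCert`, `abv_le_of_dehomCert_nonarch`: the local key lemma in DEHOMOGENISED form:
  if `j` maximises `v (σ j)`, `σ j ≠ 0` and
  `(τ/σ j)^k + ∑ i < k, (p i).eval (σ/σ j) * (τ/σ j)^i = 0`,
  then `v τ ≤ B * v (σ j)`.
* `abv_le_of_homCert`, `abv_le_of_homCert_nonarch`: the same in HOMOGENEOUS form:
  `σ j^e * τ^k + ∑ i < k, (A i).eval σ * τ^i = 0` with `A i` homogeneous of degree `e + k - i`.
-/
import Mathlib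

namespace Fermat.Agent.MW.KL39

open MvPolynomial

variable {K : Type*} [Field K] {ι : Type*}

/-! ### Values of polynomials at points of the unit polydisc -/

/-- Archimedean form: `v (p.eval y) ≤ ∑ v (coeff)` when all `v (y i) ≤ 1`. -/
lemma abv_eval_le_sum_of_le_one (v : AbsoluteValue K ℝ) (p : MvPolynomial ι K) (y : ι → K)
    (hy : ∀ i, v (y i) ≤ 1) :
    v (p.eval y) ≤ ∑ s ∈ p.support, v (p.coeff s) := by
  rw [eval_eq]
  refine (v.sum_le _ _).trans (Finset.sum_le_sum fun s _ => ?_)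
  rw [v.map_mul, v.map_prod]
  have h1 : ∏ i ∈ s.support, v (y i ^ s i) ≤ 1 := by
    refine Finset.prod_le_one (fun i _ => v.nonneg _) fun i _ => ?_
    rw [v.map_pow]
    exact pow_le_one₀ (v.nonneg _) (hy i)
  calc v (coeff s p) * ∏ i ∈ s.support, v (y i ^ s i) ≤ v (coeff s p) * 1 := by
        gcongr
    _ = v (coeff s p) := mul_one _

/-- Nonarchimedean form: `v (p.eval y) ≤ B` when all `v (coeff) ≤ B`, `0 ≤ B`
and all `v (y i) ≤ 1`. -/
lemma abv_eval_le_of_le_one_nonarch {v : AbsoluteValue K ℝ} (hv : IsNonarchimedean v)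
    (p : MvPolynomial ι K) (y : ι → K) (hy : ∀ i, v (y i) ≤ 1) (B : ℝ) (hB : 0 ≤ B)
    (hp : ∀ s ∈ p.support, v (p.coeff s) ≤ B) :
    v (p.eval y) ≤ B := by
  rw [eval_eq]
  rcases p.support.eq_empty_or_nonempty with h0 | hne
  · rw [h0, Finset.sum_empty, v.map_zero]; exact hB
  obtain ⟨s, hs₁, hs₂⟩ :=
    hv.finset_image_add_of_nonempty (fun d ↦ coeff d p * ∏ i ∈ d.support, y i ^ d i) hne
  refine hs₂.trans ?_
  rw [v.map_mul, v.map_prod]
  have h1 : ∏ i ∈ s.support, v (y i ^ s i) ≤ 1 := by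
    refine Finset.prod_le_one (fun i _ => v.nonneg _) fun i _ => ?_
    rw [v.map_pow]
    exact pow_le_one₀ (v.nonneg _) (hy i)
  calc v (coeff s p) * ∏ i ∈ s.support, v (y i ^ s i) ≤ B * 1 := by
        gcongr
        exact hp s hs₁
    _ = B := mul_one _

/-! ### Roots of monic relations -/

/-- Archimedean root bound: a root `z` of `z^k + ∑ i < k, a i * z^i` has `v z ≤ B` as soon as
`1 ≤ B` and `∑ i, v (a i) ≤ B`. -/
lemma abv_le_of_monic_relation (v : AbsoluteValue K ℝ) (z : K) (k : ℕ) (a : Fin k → K)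
    (hrel : z ^ k + ∑ i : Fin k, a i * z ^ (i : ℕ) = 0) (B : ℝ) (hB : 1 ≤ B)
    (ha : ∑ i : Fin k, v (a i) ≤ B) : v z ≤ B := by
  by_contra hlt
  replace hlt := not_le.mp hlt
  have hT1 : 1 < v z := lt_of_le_of_lt hB hlt
  have hT0 : 0 < v z := lt_trans zero_lt_one hT1
  rcases k with _ | k
  · simp at hrel
  have hz : z ^ (k + 1) = - ∑ i : Fin (k + 1), a i * z ^ (i : ℕ) := eq_neg_of_add_eq_zero_left hrel
  have h1 : v z ^ (k + 1) ≤ ∑ i : Fin (k + 1), v (a i) * v z ^ (i : ℕ) := by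
    rw [← v.map_pow, hz, v.map_neg]
    refine (v.sum_le _ _).trans (le_of_eq ?_)
    refine Finset.sum_congr rfl fun i _ => ?_
    rw [v.map_mul, v.map_pow]
  have h2 : ∑ i : Fin (k + 1), v (a i) * v z ^ (i : ℕ) ≤
      ∑ i : Fin (k + 1), v (a i) * v z ^ k := by
    refine Finset.sum_le_sum fun i _ => ?_
    have : v z ^ (i : ℕ) ≤ v z ^ k := pow_le_pow_right₀ hT1.le (Nat.lt_succ_iff.mp i.2)
    exact mul_le_mul_of_nonneg_left this (v.nonneg _)
  have h3 : ∑ i : Fin (k + 1), v (a i) * v z ^ k = (∑ i : Fin (k + 1), v (a i)) * v z ^ k := by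
    rw [Finset.sum_mul]
  have hpk : 0 < v z ^ k := pow_pos hT0 k
  have h4 : (∑ i : Fin (k + 1), v (a i)) * v z ^ k < v z * v z ^ k :=
    mul_lt_mul_of_pos_right (lt_of_le_of_lt ha hlt) hpk
  have h5 : v z ^ (k + 1) = v z * v z ^ k := pow_succ' _ _
  linarith

/-- Nonarchimedean root bound: a root `z` of `z^k + ∑ i < k, a i * z^i` has `v z ≤ B` as soon as
`1 ≤ B` and all `v (a i) ≤ B`. -/
lemma abv_le_of_monic_relation_nonarch {v : AbsoluteValue K ℝ} (hv : IsNonarchimedean v)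
    (z : K) (k : ℕ) (a : Fin k → K)
    (hrel : z ^ k + ∑ i : Fin k, a i * z ^ (i : ℕ) = 0) (B : ℝ) (hB : 1 ≤ B)
    (ha : ∀ i : Fin k, v (a i) ≤ B) : v z ≤ B := by
  by_contra hlt
  replace hlt := not_le.mp hlt
  have hT1 : 1 < v z := lt_of_le_of_lt hB hlt
  have hT0 : 0 < v z := lt_trans zero_lt_one hT1
  rcases k with _ | k
  · simp at hrel
  have hz : z ^ (k + 1) = - ∑ i : Fin (k + 1), a i * z ^ (i : ℕ) := eq_neg_of_add_eq_zero_left hrel
  have hpk : 0 < v z ^ k := pow_pos hT0 k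
  have h1 : v z ^ (k + 1) ≤ B * v z ^ k := by
    rw [← v.map_pow, hz, v.map_neg]
    refine (hv.apply_sum_univ_le).trans (ciSup_le fun i => ?_)
    rw [v.map_mul, v.map_pow]
    have : v z ^ (i : ℕ) ≤ v z ^ k := pow_le_pow_right₀ hT1.le (Nat.lt_succ_iff.mp i.2)
    exact mul_le_mul (ha i) this (pow_nonneg hT0.le _) (zero_le_one.trans hB)
  have h4 : B * v z ^ k < v z * v z ^ k := mul_lt_mul_of_pos_right hlt hpk
  have h5 : v z ^ (k + 1) = v z * v z ^ k := pow_succ' _ _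
  linarith

/-! ### The local key lemma, dehomogenised form -/

/-- LOCAL KEY LEMMA (archimedean form, dehomogenised certificate).
If `j` maximises `v (σ ·)`, `σ j ≠ 0`, and `τ / σ j` satisfies a monic relation whose coefficients
are polynomials `p i` in the `σ a / σ j`, then `v τ ≤ B * v (σ j)` for every `B ≥ 1` with
`∑ i, ∑ s ∈ (p i).support, v (coeff s (p i)) ≤ B`. -/
lemma abv_le_of_dehomCert (v : AbsoluteValue K ℝ) (σ : ι → K) (j : ι)
    (hj : ∀ i, v (σ i) ≤ v (σ j)) (hσj : σ j ≠ 0) (τ : K) (k : ℕ)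
    (p : Fin k → MvPolynomial ι K)
    (hrel : (τ / σ j) ^ k +
      ∑ i : Fin k, (p i).eval (fun a => σ a / σ j) * (τ / σ j) ^ (i : ℕ) = 0)
    (B : ℝ) (hB : 1 ≤ B)
    (hp : ∑ i : Fin k, ∑ s ∈ (p i).support, v ((p i).coeff s) ≤ B) :
    v τ ≤ B * v (σ j) := by
  have hpos : 0 < v (σ j) := v.pos hσj
  have hy : ∀ a, v (σ a / σ j) ≤ 1 := fun a => by
    rw [map_div₀, div_le_one hpos]; exact hj a
  have hz : v (τ / σ j) ≤ B := by
    refine abv_le_of_monic_relation v (τ / σ j) k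
      (fun i => (p i).eval (fun a => σ a / σ j)) hrel B hB (le_trans ?_ hp)
    exact Finset.sum_le_sum fun i _ => abv_eval_le_sum_of_le_one v (p i) _ hy
  rw [map_div₀, div_le_iff₀ hpos] at hz
  exact hz

/-- LOCAL KEY LEMMA (nonarchimedean form, dehomogenised certificate). -/
lemma abv_le_of_dehomCert_nonarch {v : AbsoluteValue K ℝ} (hv : IsNonarchimedean v)
    (σ : ι → K) (j : ι)
    (hj : ∀ i, v (σ i) ≤ v (σ j)) (hσj : σ j ≠ 0) (τ : K) (k : ℕ)
    (p : Fin k → MvPolynomial ι K)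
    (hrel : (τ / σ j) ^ k +
      ∑ i : Fin k, (p i).eval (fun a => σ a / σ j) * (τ / σ j) ^ (i : ℕ) = 0)
    (B : ℝ) (hB : 1 ≤ B)
    (hp : ∀ i : Fin k, ∀ s ∈ (p i).support, v ((p i).coeff s) ≤ B) :
    v τ ≤ B * v (σ j) := by
  have hpos : 0 < v (σ j) := v.pos hσj
  have hy : ∀ a, v (σ a / σ j) ≤ 1 := fun a => by
    rw [map_div₀, div_le_one hpos]; exact hj a
  have hz : v (τ / σ j) ≤ B := by
    refine abv_le_of_monic_relation_nonarch hv (τ / σ j) k
      (fun i => (p i).eval (fun a => σ a / σ j)) hrel B hB fun i => ?_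
    exact abv_eval_le_of_le_one_nonarch hv (p i) _ hy B (zero_le_one.trans hB) (hp i)
  rw [map_div₀, div_le_iff₀ hpos] at hz
  exact hz

/-! ### From homogeneous to dehomogenised certificates -/

/-- A homogeneous polynomial of degree `N` scales by `c ^ N` under scaling the point by `c`. -/
lemma eval_smul_of_isHomogeneous {p : MvPolynomial ι K} {N : ℕ} (hp : p.IsHomogeneous N)
    (c : K) (x : ι → K) : p.eval (c • x) = c ^ N * p.eval x := by
  rw [eval_eq, eval_eq, Finset.mul_sum]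
  refine Finset.sum_congr rfl fun s hs => ?_
  have hN : N = ∑ i ∈ s.support, s i := hp.degree_eq_sum_deg_support hs
  have h1 : ∏ i ∈ s.support, (c • x) i ^ s i =
      c ^ N * ∏ i ∈ s.support, x i ^ s i := by
    rw [hN, ← Finset.prod_pow_eq_pow_sum, ← Finset.prod_mul_distrib]
    refine Finset.prod_congr rfl fun i _ => ?_
    rw [Pi.smul_apply, smul_eq_mul, mul_pow]
  rw [h1]; ring

/-- Dividing a homogeneous relation by `σ j ^ (e + k)`. -/
lemma dehom_of_hom (σ : ι → K) (j : ι) (hσj : σ j ≠ 0) (τ : K) (e k : ℕ)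
    (A : Fin k → MvPolynomial ι K) (hA : ∀ i : Fin k, (A i).IsHomogeneous (e + k - i))
    (hrel : σ j ^ e * τ ^ k + ∑ i : Fin k, (A i).eval σ * τ ^ (i : ℕ) = 0) :
    (τ / σ j) ^ k +
      ∑ i : Fin k, (A i).eval (fun a => σ a / σ j) * (τ / σ j) ^ (i : ℕ) = 0 := by
  have key : ∀ i : Fin k, (A i).eval (fun a => σ a / σ j) * (τ / σ j) ^ (i : ℕ) =
      ((A i).eval σ * τ ^ (i : ℕ)) / σ j ^ (e + k) := by
    intro i
    have h1 : (fun a => σ a / σ j) = (σ j)⁻¹ • σ := by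
      funext a; simp [div_eq_inv_mul]
    have h2 : (A i).eval ((σ j)⁻¹ • σ) = (σ j)⁻¹ ^ (e + k - i) * (A i).eval σ :=
      eval_smul_of_isHomogeneous (hA i) _ _
    rw [h1, h2, div_pow]
    have hik : (i : ℕ) ≤ e + k := le_trans (Nat.le_of_lt i.2) (Nat.le_add_left _ _)
    have h3 : σ j ^ (e + k) = σ j ^ (e + k - i) * σ j ^ (i : ℕ) := by
      rw [← pow_add, Nat.sub_add_cancel hik]
    rw [h3, inv_pow]
    field_simp
  rw [Finset.sum_congr rfl fun i _ => key i, ← Finset.sum_div]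
  have h4 : (τ / σ j) ^ k = (σ j ^ e * τ ^ k) / σ j ^ (e + k) := by
    rw [div_pow, pow_add]; field_simp
  rw [h4, ← add_div, hrel, zero_div]

/-- LOCAL KEY LEMMA (archimedean form, homogeneous certificate). -/
lemma abv_le_of_homCert (v : AbsoluteValue K ℝ) (σ : ι → K) (j : ι)
    (hj : ∀ i, v (σ i) ≤ v (σ j)) (hσj : σ j ≠ 0) (τ : K) (e k : ℕ)
    (A : Fin k → MvPolynomial ι K) (hA : ∀ i : Fin k, (A i).IsHomogeneous (e + k - i))
    (hrel : σ j ^ e * τ ^ k + ∑ i : Fin k, (A i).eval σ * τ ^ (i : ℕ) = 0)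
    (B : ℝ) (hB : 1 ≤ B)
    (hp : ∑ i : Fin k, ∑ s ∈ (A i).support, v ((A i).coeff s) ≤ B) :
    v τ ≤ B * v (σ j) :=
  abv_le_of_dehomCert v σ j hj hσj τ k A (dehom_of_hom σ j hσj τ e k A hA hrel) B hB hp

/-- LOCAL KEY LEMMA (nonarchimedean form, homogeneous certificate). -/
lemma abv_le_of_homCert_nonarch {v : AbsoluteValue K ℝ} (hv : IsNonarchimedean v)
    (σ : ι → K) (j : ι)
    (hj : ∀ i, v (σ i) ≤ v (σ j)) (hσj : σ j ≠ 0) (τ : K) (e k : ℕ)
    (A : Fin k → MvPolynomial ι K) (hA : ∀ i : Fin k, (A i).IsHomogeneous (e + k - i))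
    (hrel : σ j ^ e * τ ^ k + ∑ i : Fin k, (A i).eval σ * τ ^ (i : ℕ) = 0)
    (B : ℝ) (hB : 1 ≤ B)
    (hp : ∀ i : Fin k, ∀ s ∈ (A i).support, v ((A i).coeff s) ≤ B) :
    v τ ≤ B * v (σ j) :=
  abv_le_of_dehomCert_nonarch hv σ j hj hσj τ k A (dehom_of_hom σ j hσj τ e k A hA hrel) B hB hp

end Fermat.Agent.MW.KL39
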