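/-
Brick KL-A (programme MW, S17), file 2: GLOBAL form of the key lemma for a field `K` with
Mathlib's `Height.AdmissibleAbsValues K`.

* `hasFiniteMulSupport_iSup_nonarch`: public twin of a private Mathlib lemma.
* `mulHeight_le_of_forall_iSup_le`: COMPARISON PRINCIPLE. If `⨆ v (x i) ≤ R * ⨆ v (y i)` at the
  archimedean `v` and `⨆ v (x i) ≤ ⨆ v (y i)` at the nonarchimedean `v`, then
  `mulHeight x ≤ R ^ totalWeight K * mulHeight y`.
* `mulHeight_sumElim_le_of_local`: global bound from local bounds with a coefficient tuple `c`.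
* `mulHeight_sumElim_le_of_dehomCert` (KEY LEMMA, number-field form): if for every pair `(j, l)`
  with `σ j ≠ 0` the quotient `τ l / σ j` satisfies a monic relation with coefficients polynomial
  in the `σ a / σ j`, all coefficients of all these polynomials occur in a tuple `c` which also
  contains `1`, and each pair `(j, l)` uses at most `R` monomials, then
  `mulHeight (Sum.elim σ τ) ≤ R ^ totalWeight K * mulHeight c * mulHeight σ`.
  The constant has the shape of Mathlib's `mulHeight_linearMap_apply_le`; it is stable under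
  finite extensions (`totalWeight` and `log mulHeight` both scale by the degree).
* `mulHeight_le_of_dehomCert`, `logHeight_sumElim_le_of_dehomCert`, `logHeight_le_of_dehomCert`,
  and the `homCert` variants for homogeneous certificates.
-/
import Fermat.Agent.MW.KL39.Local

namespace Fermat.Agent.MW.KL39

open MvPolynomial Height Height.AdmissibleAbsValues Function

variable {K : Type*} [Field K] [AdmissibleAbsValues K]

/-- Public twin of Mathlib's private `Height.hasFiniteMulSupport_iSup_nonarchAbsVal`. -/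
lemma hasFiniteMulSupport_iSup_nonarch {ι : Type*} [Finite ι] {x : ι → K} (hx : x ≠ 0) :
    (fun v : nonarchAbsVal (K := K) ↦ ⨆ i, v.val (x i)).HasFiniteMulSupport := by
  have : Nonempty {j // x j ≠ 0} := nonempty_subtype.mpr <| ne_iff.mp hx
  suffices (fun v : nonarchAbsVal (K := K) ↦
      ⨆ i : {j // x j ≠ 0}, v.val (x i)).HasFiniteMulSupport by
    convert this with v
    obtain ⟨i, hi⟩ : ∃ j, x j ≠ 0 := Function.ne_iff.mp hx
    have : Nonempty ι := .intro i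
    refine le_antisymm (ciSup_le fun j ↦ ?_) (ciSup_le fun ⟨j, hj⟩ ↦ Finite.le_ciSup_of_le j le_rfl)
    rcases eq_or_ne (x j) 0 with h | h
    · rw [h, v.val.map_zero]
      exact Real.iSup_nonneg' ⟨⟨i, hi⟩, v.val.nonneg ..⟩
    · exact Finite.le_ciSup_of_le ⟨j, h⟩ le_rfl
  exact HasFiniteMulSupport.iSup fun i => hasFiniteMulSupport i.2

/-- COMPARISON PRINCIPLE for multiplicative heights. -/
theorem mulHeight_le_of_forall_iSup_le {ι ι' : Type*} [Finite ι] [Finite ι']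
    {x : ι → K} {y : ι' → K} (hx : x ≠ 0) (hy : y ≠ 0) (R : ℝ) (hR : 0 ≤ R)
    (harch : ∀ v ∈ archAbsVal (K := K), ⨆ i, v (x i) ≤ R * ⨆ i, v (y i))
    (hnon : ∀ v ∈ nonarchAbsVal (K := K), ⨆ i, v (x i) ≤ ⨆ i, v (y i)) :
    mulHeight x ≤ R ^ totalWeight K * mulHeight y := by
  rw [mulHeight_eq hx, mulHeight_eq hy, ← mul_assoc]
  have h1 : (archAbsVal.map fun v : AbsoluteValue K ℝ ↦ ⨆ i, v (x i)).prod ≤
      R ^ totalWeight K * (archAbsVal.map fun v : AbsoluteValue K ℝ ↦ ⨆ i, v (y i)).prod := by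
    rw [← Multiset.prod_replicate, totalWeight, ← Multiset.map_const', ← Multiset.prod_map_mul]
    exact Multiset.prod_map_le_prod_map₀ _ _
      (fun v _ ↦ Real.iSup_nonneg_of_nonnegHomClass v _) fun v hv ↦ harch v hv
  have h2 : ∏ᶠ v : nonarchAbsVal (K := K), ⨆ i, v.val (x i) ≤
      ∏ᶠ v : nonarchAbsVal (K := K), ⨆ i, v.val (y i) :=
    finprod_le_finprod (hasFiniteMulSupport_iSup_nonarch hx)
      (fun v ↦ Real.iSup_nonneg_of_nonnegHomClass v.val _)
      (hasFiniteMulSupport_iSup_nonarch hy) fun v ↦ hnon v.val v.prop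
  have h3 : 0 ≤ ∏ᶠ v : nonarchAbsVal (K := K), ⨆ i, v.val (x i) :=
    finprod_nonneg fun v ↦ Real.iSup_nonneg_of_nonnegHomClass v.val _
  have h4 : 0 ≤ R ^ totalWeight K *
      (archAbsVal.map fun v : AbsoluteValue K ℝ ↦ ⨆ i, v (y i)).prod :=
    mul_nonneg (pow_nonneg hR _)
      (Multiset.prod_map_nonneg fun v _ ↦ Real.iSup_nonneg_of_nonnegHomClass v _)
  exact mul_le_mul h1 h2 h3 h4

variable {ι ι' κ : Type*} [Finite ι] [Finite ι'] [Finite κ]

omit [AdmissibleAbsValues K] [Finite ι] [Finite ι'] in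
/-- The supremum over a sum type of a tuple built with `Sum.elim`. -/
lemma iSup_sumElim_le (v : AbsoluteValue K ℝ) (σ : ι → K) (τ : ι' → K) (B M : ℝ)
    (hσ : ∀ i, v (σ i) ≤ B * M) (hτ : ∀ l, v (τ l) ≤ B * M) (hBM : 0 ≤ B * M) :
    ⨆ a, v (Sum.elim σ τ a) ≤ B * M := by
  refine Real.iSup_le (fun a => ?_) hBM
  cases a with
  | inl i => exact hσ i
  | inr l => exact hτ l

/-- GLOBAL BOUND FROM LOCAL BOUNDS. `c` is a tuple of "coefficients" containing `1`. -/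
theorem mulHeight_sumElim_le_of_local (σ : ι → K) (τ : ι' → K) (hσ : σ ≠ 0)
    (c : κ → K) (hc1 : ∃ a, c a = 1) (R : ℝ) (hR : 1 ≤ R)
    (harch : ∀ v ∈ archAbsVal (K := K), ∀ l,
      v (τ l) ≤ R * (⨆ a, v (c a)) * ⨆ i, v (σ i))
    (hnon : ∀ v ∈ nonarchAbsVal (K := K), ∀ l,
      v (τ l) ≤ (⨆ a, v (c a)) * ⨆ i, v (σ i)) :
    mulHeight (Sum.elim σ τ) ≤ R ^ totalWeight K * mulHeight c * mulHeight σ := by
  obtain ⟨a1, ha1⟩ := hc1
  have hc : c ≠ 0 := ne_iff.mpr ⟨a1, by simp [ha1]⟩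
  obtain ⟨i0, hi0⟩ := ne_iff.mp hσ
  have hx : Sum.elim σ τ ≠ 0 := ne_iff.mpr ⟨Sum.inl i0, by simpa using hi0⟩
  have hS : ∀ v : AbsoluteValue K ℝ, 1 ≤ ⨆ a, v (c a) := fun v =>
    Finite.le_ciSup_of_le a1 (by simp [ha1])
  have hM : ∀ v : AbsoluteValue K ℝ, 0 ≤ ⨆ i, v (σ i) := fun v =>
    Real.iSup_nonneg_of_nonnegHomClass v _
  have hle : ∀ v : AbsoluteValue K ℝ, ∀ i, v (σ i) ≤ ⨆ i, v (σ i) := fun v i =>
    Finite.le_ciSup (fun i => v (σ i)) i
  rw [mul_assoc, ← mulHeight_fun_mul_eq hc hσ]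
  have hy : (fun a : κ × ι ↦ c a.1 * σ a.2) ≠ 0 :=
    ne_iff.mpr ⟨⟨a1, i0⟩, mul_ne_zero (by simp [ha1]) hi0⟩
  refine mulHeight_le_of_forall_iSup_le hx hy R (zero_le_one.trans hR) (fun v hv => ?_)
    (fun v hv => ?_)
  · rw [Real.iSup_fun_mul_eq_iSup_mul_iSup_of_nonneg v c σ, ← mul_assoc]
    have hB : 1 ≤ R * ⨆ a, v (c a) := one_le_mul_of_one_le_of_one_le hR (hS v)
    refine iSup_sumElim_le v σ τ _ _ (fun i => ?_) (harch v hv)
      (mul_nonneg (zero_le_one.trans hB) (hM v))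
    calc v (σ i) ≤ ⨆ i, v (σ i) := hle v i
      _ = 1 * ⨆ i, v (σ i) := (one_mul _).symm
      _ ≤ _ := mul_le_mul_of_nonneg_right hB (hM v)
  · rw [Real.iSup_fun_mul_eq_iSup_mul_iSup_of_nonneg v c σ]
    refine iSup_sumElim_le v σ τ _ _ (fun i => ?_) (hnon v hv)
      (mul_nonneg (zero_le_one.trans (hS v)) (hM v))
    calc v (σ i) ≤ ⨆ i, v (σ i) := hle v i
      _ = 1 * ⨆ i, v (σ i) := (one_mul _).symm
      _ ≤ _ := mul_le_mul_of_nonneg_right (hS v) (hM v)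

omit [AdmissibleAbsValues K] in
/-- An index maximising `v (σ ·)`; it has `σ j ≠ 0` when `σ ≠ 0`. -/
lemma exists_argmax (v : AbsoluteValue K ℝ) (σ : ι → K) (hσ : σ ≠ 0) :
    ∃ j, σ j ≠ 0 ∧ (∀ i, v (σ i) ≤ v (σ j)) ∧ ⨆ i, v (σ i) = v (σ j) := by
  obtain ⟨i0, hi0⟩ := ne_iff.mp hσ
  have : Nonempty ι := ⟨i0⟩
  obtain ⟨j, hj⟩ := Finite.exists_max (fun i => v (σ i))
  refine ⟨j, ?_, hj, le_antisymm (ciSup_le hj) (Finite.le_ciSup (fun i => v (σ i)) j)⟩
  intro h0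
  have h1 : v (σ i0) ≤ 0 := by simpa [h0] using hj i0
  exact hi0 (v.eq_zero.mp (le_antisymm h1 (v.nonneg _)))

/-- KEY LEMMA, number-field form, DEHOMOGENISED certificates.
`σ : ι → K` nonzero, `τ : ι' → K`; for all `(j, l)` with `σ j ≠ 0` a monic relation of degree
`k j l` for `τ l / σ j` whose coefficients are the polynomials `p j l i` evaluated at `σ / σ j`.
All coefficients of the `p j l i` occur in the tuple `c`, which contains `1`; for each `(j, l)`
the total number of monomials of the `p j l i` is at most `R`. -/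
theorem mulHeight_sumElim_le_of_dehomCert (σ : ι → K) (τ : ι' → K) (hσ : σ ≠ 0)
    (k : ι → ι' → ℕ) (p : ∀ j l, Fin (k j l) → MvPolynomial ι K)
    (hrel : ∀ j l, σ j ≠ 0 → (τ l / σ j) ^ k j l +
      ∑ i : Fin (k j l), (p j l i).eval (fun a => σ a / σ j) * (τ l / σ j) ^ (i : ℕ) = 0)
    (c : κ → K) (hc1 : ∃ a, c a = 1)
    (hc : ∀ j l i, ∀ s ∈ (p j l i).support, ∃ a, c a = (p j l i).coeff s)
    (R : ℕ) (hR1 : 1 ≤ R) (hR : ∀ j l, ∑ i : Fin (k j l), (p j l i).support.card ≤ R) :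
    mulHeight (Sum.elim σ τ) ≤ (R : ℝ) ^ totalWeight K * mulHeight c * mulHeight σ := by
  have hR1' : (1 : ℝ) ≤ R := by exact_mod_cast hR1
  obtain ⟨a1, ha1⟩ := hc1
  have hS : ∀ v : AbsoluteValue K ℝ, 1 ≤ ⨆ a, v (c a) := fun v =>
    Finite.le_ciSup_of_le a1 (by simp [ha1])
  have hcoef : ∀ v : AbsoluteValue K ℝ, ∀ j l i, ∀ s ∈ (p j l i).support,
      v ((p j l i).coeff s) ≤ ⨆ a, v (c a) := by
    intro v j l i s hs
    obtain ⟨a, ha⟩ := hc j l i s hs
    rw [← ha]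
    exact Finite.le_ciSup (fun a => v (c a)) a
  refine mulHeight_sumElim_le_of_local σ τ hσ c ⟨a1, ha1⟩ R hR1' (fun v _ l => ?_)
    (fun v hv l => ?_)
  · obtain ⟨j, hj0, hjmax, hjsup⟩ := exists_argmax v σ hσ
    rw [hjsup]
    refine abv_le_of_dehomCert v σ j hjmax hj0 (τ l) (k j l) (p j l) (hrel j l hj0) _
      (one_le_mul_of_one_le_of_one_le hR1' (hS v)) ?_
    calc ∑ i : Fin (k j l), ∑ s ∈ (p j l i).support, v ((p j l i).coeff s)
        ≤ ∑ i : Fin (k j l), ∑ _s ∈ (p j l i).support, ⨆ a, v (c a) :=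
          Finset.sum_le_sum fun i _ => Finset.sum_le_sum fun s hs => hcoef v j l i s hs
      _ = ((∑ i : Fin (k j l), (p j l i).support.card : ℕ) : ℝ) * ⨆ a, v (c a) := by
          simp only [Finset.sum_const, nsmul_eq_mul]
          rw [Nat.cast_sum, Finset.sum_mul]
      _ ≤ (R : ℝ) * ⨆ a, v (c a) := by
          refine mul_le_mul_of_nonneg_right ?_ (zero_le_one.trans (hS v))
          exact_mod_cast hR j l
  · obtain ⟨j, hj0, hjmax, hjsup⟩ := exists_argmax v σ hσ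
    rw [hjsup]
    exact abv_le_of_dehomCert_nonarch (isNonarchimedean v hv) σ j hjmax hj0 (τ l) (k j l)
      (p j l) (hrel j l hj0) _ (hS v) fun i s hs => hcoef v j l i s hs

/-- KEY LEMMA, number-field form: bound for the height of `τ` alone. -/
theorem mulHeight_le_of_dehomCert (σ : ι → K) (τ : ι' → K) (hσ : σ ≠ 0)
    (k : ι → ι' → ℕ) (p : ∀ j l, Fin (k j l) → MvPolynomial ι K)
    (hrel : ∀ j l, σ j ≠ 0 → (τ l / σ j) ^ k j l +
      ∑ i : Fin (k j l), (p j l i).eval (fun a => σ a / σ j) * (τ l / σ j) ^ (i : ℕ) = 0)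
    (c : κ → K) (hc1 : ∃ a, c a = 1)
    (hc : ∀ j l i, ∀ s ∈ (p j l i).support, ∃ a, c a = (p j l i).coeff s)
    (R : ℕ) (hR1 : 1 ≤ R) (hR : ∀ j l, ∑ i : Fin (k j l), (p j l i).support.card ≤ R) :
    mulHeight τ ≤ (R : ℝ) ^ totalWeight K * mulHeight c * mulHeight σ := by
  have h := mulHeight_comp_le (Sum.inr : ι' → ι ⊕ ι') (Sum.elim σ τ)
  rw [Sum.elim_comp_inr] at h
  exact h.trans (mulHeight_sumElim_le_of_dehomCert σ τ hσ k p hrel c hc1 hc R hR1 hR)

/-- KEY LEMMA, number-field form, logarithmic. -/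
theorem logHeight_sumElim_le_of_dehomCert (σ : ι → K) (τ : ι' → K) (hσ : σ ≠ 0)
    (k : ι → ι' → ℕ) (p : ∀ j l, Fin (k j l) → MvPolynomial ι K)
    (hrel : ∀ j l, σ j ≠ 0 → (τ l / σ j) ^ k j l +
      ∑ i : Fin (k j l), (p j l i).eval (fun a => σ a / σ j) * (τ l / σ j) ^ (i : ℕ) = 0)
    (c : κ → K) (hc1 : ∃ a, c a = 1)
    (hc : ∀ j l i, ∀ s ∈ (p j l i).support, ∃ a, c a = (p j l i).coeff s)
    (R : ℕ) (hR1 : 1 ≤ R) (hR : ∀ j l, ∑ i : Fin (k j l), (p j l i).support.card ≤ R) :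
    logHeight (Sum.elim σ τ) ≤ totalWeight K * Real.log R + logHeight c + logHeight σ := by
  have hRpos : (0 : ℝ) < R := by exact_mod_cast hR1
  have h := mulHeight_sumElim_le_of_dehomCert σ τ hσ k p hrel c hc1 hc R hR1 hR
  have h' := Real.log_le_log (mulHeight_pos _) h
  rw [Real.log_mul (mul_pos (pow_pos hRpos _) (mulHeight_pos _)).ne' (mulHeight_pos _).ne',
    Real.log_mul (pow_pos hRpos _).ne' (mulHeight_pos _).ne', Real.log_pow] at h'
  simpa [logHeight_eq_log_mulHeight] using h'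

/-- KEY LEMMA, number-field form, logarithmic, for `τ` alone. -/
theorem logHeight_le_of_dehomCert (σ : ι → K) (τ : ι' → K) (hσ : σ ≠ 0)
    (k : ι → ι' → ℕ) (p : ∀ j l, Fin (k j l) → MvPolynomial ι K)
    (hrel : ∀ j l, σ j ≠ 0 → (τ l / σ j) ^ k j l +
      ∑ i : Fin (k j l), (p j l i).eval (fun a => σ a / σ j) * (τ l / σ j) ^ (i : ℕ) = 0)
    (c : κ → K) (hc1 : ∃ a, c a = 1)
    (hc : ∀ j l i, ∀ s ∈ (p j l i).support, ∃ a, c a = (p j l i).coeff s)
    (R : ℕ) (hR1 : 1 ≤ R) (hR : ∀ j l, ∑ i : Fin (k j l), (p j l i).support.card ≤ R) :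
    logHeight τ ≤ totalWeight K * Real.log R + logHeight c + logHeight σ := by
  have h := logHeight_comp_le (Sum.inr : ι' → ι ⊕ ι') (Sum.elim σ τ)
  rw [Sum.elim_comp_inr] at h
  exact h.trans (logHeight_sumElim_le_of_dehomCert σ τ hσ k p hrel c hc1 hc R hR1 hR)

/-- KEY LEMMA, number-field form, HOMOGENEOUS certificates:
`σ j ^ e * τ l ^ k + ∑ i < k, (A i).eval σ * τ l ^ i = 0`, `A i` homogeneous of degree
`e + k - i`. -/
theorem mulHeight_sumElim_le_of_homCert (σ : ι → K) (τ : ι' → K) (hσ : σ ≠ 0)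
    (e k : ι → ι' → ℕ) (A : ∀ j l, Fin (k j l) → MvPolynomial ι K)
    (hA : ∀ j l (i : Fin (k j l)), (A j l i).IsHomogeneous (e j l + k j l - i))
    (hrel : ∀ j l, σ j ≠ 0 → σ j ^ e j l * τ l ^ k j l +
      ∑ i : Fin (k j l), (A j l i).eval σ * τ l ^ (i : ℕ) = 0)
    (c : κ → K) (hc1 : ∃ a, c a = 1)
    (hc : ∀ j l i, ∀ s ∈ (A j l i).support, ∃ a, c a = (A j l i).coeff s)
    (R : ℕ) (hR1 : 1 ≤ R) (hR : ∀ j l, ∑ i : Fin (k j l), (A j l i).support.card ≤ R) :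
    mulHeight (Sum.elim σ τ) ≤ (R : ℝ) ^ totalWeight K * mulHeight c * mulHeight σ :=
  mulHeight_sumElim_le_of_dehomCert σ τ hσ k A
    (fun j l hj => dehom_of_hom σ j hj (τ l) (e j l) (k j l) (A j l) (hA j l) (hrel j l hj))
    c hc1 hc R hR1 hR

/-- KEY LEMMA, number-field form, homogeneous certificates, logarithmic. -/
theorem logHeight_sumElim_le_of_homCert (σ : ι → K) (τ : ι' → K) (hσ : σ ≠ 0)
    (e k : ι → ι' → ℕ) (A : ∀ j l, Fin (k j l) → MvPolynomial ι K)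
    (hA : ∀ j l (i : Fin (k j l)), (A j l i).IsHomogeneous (e j l + k j l - i))
    (hrel : ∀ j l, σ j ≠ 0 → σ j ^ e j l * τ l ^ k j l +
      ∑ i : Fin (k j l), (A j l i).eval σ * τ l ^ (i : ℕ) = 0)
    (c : κ → K) (hc1 : ∃ a, c a = 1)
    (hc : ∀ j l i, ∀ s ∈ (A j l i).support, ∃ a, c a = (A j l i).coeff s)
    (R : ℕ) (hR1 : 1 ≤ R) (hR : ∀ j l, ∑ i : Fin (k j l), (A j l i).support.card ≤ R) :
    logHeight (Sum.elim σ τ) ≤ totalWeight K * Real.log R + logHeight c + logHeight σ :=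
  logHeight_sumElim_le_of_dehomCert σ τ hσ k A
    (fun j l hj => dehom_of_hom σ j hj (τ l) (e j l) (k j l) (A j l) (hA j l) (hrel j l hj))
    c hc1 hc R hR1 hR

end Fermat.Agent.MW.KL39
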