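/-
Brick KL-A (programme MW, S17), file 5: the KEY LEMMA for the ABSOLUTE logarithmic height
`Fermat.Agent.MW.AbsHeightDef10.absLogHeight` on tuples over `Ω` (any field of characteristic `0`
algebraic over `ℚ`, e.g. `AlgebraicClosure ℚ`).

`absLogHeight_sumElim_le_of_dehomCert`:
  `absLogHeight (Sum.elim σ τ) ≤ Real.log R + absLogHeight c + absLogHeight σ`
for `σ : ι → Ω` nonzero, `τ : ι' → Ω`, dehomogenised certificates `p j l i : MvPolynomial ι Ω`
for all pairs `(j, l)` with `σ j ≠ 0`, a coefficient tuple `c : κ → Ω` containing `1` and all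
coefficients of the `p j l i`, and `R ≥ 1` bounding the number of monomials used by each pair.
The constant `Real.log R + absLogHeight c` does not depend on `σ`, `τ`.
-/
import Fermat.Agent.MW.KL39.Height
import Fermat.Agent.MW.AbsHeightDef10

namespace Fermat.Agent.MW.KL39

open MvPolynomial Height Fermat.Agent.MW.AbsHeightDef10 IntermediateField

variable {Ω : Type*} [Field Ω] [CharZero Ω] [Algebra.IsAlgebraic ℚ Ω]
variable {ι ι' κ : Type*} [Finite ι] [Finite ι'] [Finite κ]

/-- KEY LEMMA, absolute form, dehomogenised certificates. -/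
theorem absLogHeight_sumElim_le_of_dehomCert (σ : ι → Ω) (τ : ι' → Ω) (hσ : σ ≠ 0)
    (k : ι → ι' → ℕ) (p : ∀ j l, Fin (k j l) → MvPolynomial ι Ω)
    (hrel : ∀ j l, σ j ≠ 0 → (τ l / σ j) ^ k j l +
      ∑ i : Fin (k j l), (p j l i).eval (fun a => σ a / σ j) * (τ l / σ j) ^ (i : ℕ) = 0)
    (c : κ → Ω) (hc1 : ∃ a, c a = 1)
    (hc : ∀ j l i, ∀ s ∈ (p j l i).support, ∃ a, c a = (p j l i).coeff s)
    (R : ℕ) (hR1 : 1 ≤ R) (hR : ∀ j l, ∑ i : Fin (k j l), (p j l i).support.card ≤ R) :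
    absLogHeight (Sum.elim σ τ) ≤ Real.log R + absLogHeight c + absLogHeight σ := by
  obtain ⟨K, hKfd, hKS⟩ := exists_finiteDimensional_of_finite
    (Set.range σ ∪ Set.range τ ∪ Set.range c)
    (((Set.finite_range σ).union (Set.finite_range τ)).union (Set.finite_range c))
  have hNF := numberField_of_finiteDimensional K
  have hσK : ∀ i, σ i ∈ K := fun i => hKS (Or.inl (Or.inl ⟨i, rfl⟩))
  have hτK : ∀ l, τ l ∈ K := fun l => hKS (Or.inl (Or.inr ⟨l, rfl⟩))
  have hcK : ∀ a, c a ∈ K := fun a => hKS (Or.inr ⟨a, rfl⟩)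
  set σ' : ι → K := fun i => ⟨σ i, hσK i⟩ with hσ'def
  set τ' : ι' → K := fun l => ⟨τ l, hτK l⟩ with hτ'def
  set c' : κ → K := fun a => ⟨c a, hcK a⟩ with hc'def
  have hinj : Function.Injective (algebraMap K Ω) := (algebraMap K Ω).injective
  -- lift the polynomials to `K`
  have hlift : ∀ j l i, ∃ q : MvPolynomial ι K, map (algebraMap K Ω) q = p j l i := by
    intro j l i
    have hmem : p j l i ∈ Set.range (map (algebraMap K Ω)) := by
      rw [mem_range_map_iff_coeffs_subset]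
      intro z hz
      rw [Finset.mem_coe, mem_coeffs_iff] at hz
      obtain ⟨s, hs, rfl⟩ := hz
      obtain ⟨a, ha⟩ := hc j l i s hs
      exact ⟨⟨c a, hcK a⟩, ha⟩
    exact hmem
  choose q hq using hlift
  have hsupp : ∀ j l i, (q j l i).support = (p j l i).support := by
    intro j l i
    rw [← hq j l i, support_map_of_injective _ hinj]
  have hσ' : σ' ≠ 0 := by
    intro h0
    apply hσ
    funext i
    exact congrArg Subtype.val (congrFun h0 i)
  have hrelK : ∀ j l, σ' j ≠ 0 → (τ' l / σ' j) ^ k j l +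
      ∑ i : Fin (k j l), (q j l i).eval (fun a => σ' a / σ' j) * (τ' l / σ' j) ^ (i : ℕ) = 0 := by
    intro j l hj
    have hj' : σ j ≠ 0 := by
      intro h0
      apply hj
      exact Subtype.ext h0
    apply hinj
    have hev : ∀ i : Fin (k j l), algebraMap K Ω ((q j l i).eval (fun a => σ' a / σ' j)) =
        (p j l i).eval (fun a => σ a / σ j) := by
      intro i
      rw [eval₂_comp, eval₂_eq_eval_map, hq]
      congr 1
    rw [map_zero, map_add, map_pow, map_div₀, map_sum]
    simp only [map_mul, map_pow, map_div₀, hev]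
    exact hrel j l hj'
  have hc1' : ∃ a, c' a = 1 := by
    obtain ⟨a, ha⟩ := hc1
    exact ⟨a, Subtype.ext ha⟩
  have hc' : ∀ j l i, ∀ s ∈ (q j l i).support, ∃ a, c' a = (q j l i).coeff s := by
    intro j l i s hs
    rw [hsupp] at hs
    obtain ⟨a, ha⟩ := hc j l i s hs
    refine ⟨a, hinj ?_⟩
    rw [← coeff_map, hq]
    exact ha
  have hR' : ∀ j l, ∑ i : Fin (k j l), (q j l i).support.card ≤ R := by
    intro j l
    simp only [hsupp]
    exact hR j l
  have key := logHeight_sumElim_le_of_dehomCert σ' τ' hσ' k q hrelK c' hc1' hc' R hR1 hR'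
  have e1 : Sum.elim σ τ = fun i => algebraMap K Ω (Sum.elim σ' τ' i) := by
    funext i
    cases i <;> rfl
  have e2 : c = fun a => algebraMap K Ω (c' a) := rfl
  have e3 : σ = fun i => algebraMap K Ω (σ' i) := rfl
  rw [e1, absLogHeight_map (algebraMap K Ω) (Sum.elim σ' τ')]
  conv_rhs => rw [e2, e3]
  rw [absLogHeight_map (algebraMap K Ω) c', absLogHeight_map (algebraMap K Ω) σ']
  rw [NumberField.totalWeight_eq_finrank K] at key
  have hd : (0 : ℝ) < (Module.finrank ℚ K : ℕ) := by exact_mod_cast Module.finrank_pos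
  rw [div_le_iff₀ hd]
  have : (Real.log R + logHeight c' / (Module.finrank ℚ K : ℕ) +
      logHeight σ' / (Module.finrank ℚ K : ℕ)) * (Module.finrank ℚ K : ℕ) =
      (Module.finrank ℚ K : ℕ) * Real.log R + logHeight c' + logHeight σ' := by
    field_simp
  rw [this]
  exact key

/-- KEY LEMMA, absolute form, for `τ` alone. -/
theorem absLogHeight_le_of_dehomCert (σ : ι → Ω) (τ : ι' → Ω) (hσ : σ ≠ 0)
    (k : ι → ι' → ℕ) (p : ∀ j l, Fin (k j l) → MvPolynomial ι Ω)
    (hrel : ∀ j l, σ j ≠ 0 → (τ l / σ j) ^ k j l +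
      ∑ i : Fin (k j l), (p j l i).eval (fun a => σ a / σ j) * (τ l / σ j) ^ (i : ℕ) = 0)
    (c : κ → Ω) (hc1 : ∃ a, c a = 1)
    (hc : ∀ j l i, ∀ s ∈ (p j l i).support, ∃ a, c a = (p j l i).coeff s)
    (R : ℕ) (hR1 : 1 ≤ R) (hR : ∀ j l, ∑ i : Fin (k j l), (p j l i).support.card ≤ R) :
    absLogHeight τ ≤ Real.log R + absLogHeight c + absLogHeight σ := by
  have h := absLogHeight_comp_le (Sum.inr : ι' → ι ⊕ ι') (Sum.elim σ τ)
  rw [Sum.elim_comp_inr] at h
  exact h.trans (absLogHeight_sumElim_le_of_dehomCert σ τ hσ k p hrel c hc1 hc R hR1 hR)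

end Fermat.Agent.MW.KL39
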