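/-
Brick KL-A (programme MW, S17), file 3: PRODUCING dehomogenised certificates from integrality.

`exists_dehomCert_of_mem_integralClosure`: if `x : F` is integral over the subring generated by
`range φ ∪ range y` (`φ : k →+* F`, `y : ι → F`), then `x` satisfies a monic relation
`x ^ n + ∑ i < n, (p i).eval₂ φ y * x ^ i = 0` with `p i : MvPolynomial ι k`.
This is exactly the output shape of `Fermat.Agent.MW.HM73.div_mem_integralClosure`
(with `y i = s i / s j`, `x = t / s j`).

`exists_dehomCert_family`: the same for a whole family `(j, l)` at once, choosing the data.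
-/
import Mathlib

namespace Fermat.Agent.MW.KL39

open MvPolynomial

variable {k F : Type*} [CommRing k] [Field F] {ι : Type*}

/-- The subring generated by `range φ ∪ range y` is contained in the range of `eval₂Hom φ y`. -/
lemma closure_le_range_eval₂Hom (φ : k →+* F) (y : ι → F) :
    Subring.closure (Set.range φ ∪ Set.range y) ≤ (eval₂Hom φ y).range := by
  rw [Subring.closure_le]
  rintro _ (⟨a, rfl⟩ | ⟨i, rfl⟩)
  · exact ⟨C a, by simp⟩
  · exact ⟨X i, by simp⟩

/-- Integrality over the subring generated by `range φ ∪ range y` gives a monic relation with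
coefficients polynomial in `y`. -/
theorem exists_dehomCert_of_mem_integralClosure (φ : k →+* F) (y : ι → F) (x : F)
    (hx : x ∈ integralClosure (Subring.closure (Set.range φ ∪ Set.range y)) F) :
    ∃ (n : ℕ) (p : Fin n → MvPolynomial ι k),
      x ^ n + ∑ i : Fin n, (p i).eval₂ φ y * x ^ (i : ℕ) = 0 := by
  obtain ⟨P, hP, hPx⟩ := hx
  have hcoef : ∀ i : ℕ, ∃ q : MvPolynomial ι k,
      q.eval₂ φ y = ((P.coeff i : Subring.closure (Set.range φ ∪ Set.range y)) : F) := by
    intro i
    obtain ⟨q, hq⟩ := closure_le_range_eval₂Hom φ y (P.coeff i).2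
    exact ⟨q, hq⟩
  choose q hq using hcoef
  refine ⟨P.natDegree, fun i => q i, ?_⟩
  have h1 := hP.as_sum
  have h2 : Polynomial.eval₂ (algebraMap (Subring.closure (Set.range φ ∪ Set.range y)) F) x P =
      x ^ P.natDegree + ∑ i ∈ Finset.range P.natDegree,
        ((P.coeff i : Subring.closure (Set.range φ ∪ Set.range y)) : F) * x ^ i := by
    conv_lhs => rw [h1]
    simp [Polynomial.eval₂_add, Polynomial.eval₂_finsetSum]
    rfl
  rw [hPx] at h2
  rw [h2, ← Fin.sum_univ_eq_sum_range
    (fun i => ((P.coeff i : Subring.closure (Set.range φ ∪ Set.range y)) : F) * x ^ i)]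
  congr 1
  exact Finset.sum_congr rfl fun i _ => by rw [hq]

/-- Family version: for `s : ι → F`, `t : ι' → F`, integrality of every `t l / s j` (`s j ≠ 0`)
over the subring generated by `range φ` and the `s i / s j` gives certificates for all pairs. -/
theorem exists_dehomCert_family {ι' : Type*} (φ : k →+* F) (s : ι → F) (t : ι' → F)
    (h : ∀ j l, s j ≠ 0 → t l / s j ∈ integralClosure
      (Subring.closure (Set.range φ ∪ Set.range fun i => s i / s j)) F) :
    ∃ (n : ι → ι' → ℕ) (p : ∀ j l, Fin (n j l) → MvPolynomial ι k), ∀ j l, s j ≠ 0 →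
      (t l / s j) ^ n j l + ∑ i : Fin (n j l),
        (p j l i).eval₂ φ (fun a => s a / s j) * (t l / s j) ^ (i : ℕ) = 0 := by
  classical
  have hex : ∀ j l, ∃ (n : ℕ) (p : Fin n → MvPolynomial ι k), s j ≠ 0 →
      (t l / s j) ^ n + ∑ i : Fin n,
        (p i).eval₂ φ (fun a => s a / s j) * (t l / s j) ^ (i : ℕ) = 0 := by
    intro j l
    by_cases hj : s j = 0
    · exact ⟨0, Fin.elim0, fun h0 => absurd hj h0⟩
    · obtain ⟨n, p, hp⟩ := exists_dehomCert_of_mem_integralClosure φ
        (fun i => s i / s j) (t l / s j) (h j l hj)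
      exact ⟨n, p, fun _ => hp⟩
  choose n p hp using hex
  exact ⟨n, p, hp⟩

end Fermat.Agent.MW.KL39
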