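/-
Brick KL-A (programme MW, S17), file 4: TRANSPORT of a certificate through an evaluation.

Abstract "evaluation at a point": a subring `O ≤ F` (the local ring at the point inside the
function field), a ring hom `ev : O →+* L` to a field (the residue field, identified with the base
field), which is local (`ev a ≠ 0 → IsUnit a`), compatible with the structure maps
`φ : k →+* F`, `ψ : k →+* L`.  A family `s : ι → F` and `t : F` are written `s i = g * u i`,
`t = g * w` with `u i, w ∈ O` (`g` = local generator of the invertible sheaf).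
Values: `σ i = ev (u i)`, `τ = ev w`.

`eval_dehomCert`: a dehomogenised certificate for `(s, t)` at the index `j` in `F` gives the
certificate for the values `(σ, τ)` at `j` in `L`, as soon as `σ j ≠ 0`.
-/
import Mathlib

namespace Fermat.Agent.MW.KL39

open MvPolynomial

variable {k F L : Type*} [CommRing k] [Field F] [Field L] {ι : Type*}

/-- Transport of a monic relation with polynomial coefficients along `O ≤ F`, `ev : O →+* L`. -/
theorem eval_relation (φ : k →+* F) (ψ : k →+* L) (O : Subring F) (ev : O →+* L)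
    (hφ : ∀ a, φ a ∈ O) (hψ : ∀ a, ev ⟨φ a, hφ a⟩ = ψ a)
    (y : ι → O) (x : O) (n : ℕ) (p : Fin n → MvPolynomial ι k)
    (hrel : (x : F) ^ n + ∑ i : Fin n,
      (p i).eval₂ φ (fun a => (y a : F)) * (x : F) ^ (i : ℕ) = 0) :
    ev x ^ n + ∑ i : Fin n, (p i).eval₂ ψ (fun a => ev (y a)) * ev x ^ (i : ℕ) = 0 := by
  let φ' : k →+* O := φ.codRestrict O hφ
  have h1 : ∀ q : MvPolynomial ι k, ((q.eval₂ φ' y : O) : F) = q.eval₂ φ (fun a => (y a : F)) := by
    intro q
    have h := eval₂_comp_left O.subtype φ' y q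
    have hc : O.subtype.comp φ' = φ := RingHom.ext fun a => rfl
    rw [hc] at h
    exact h
  have h2 : ∀ q : MvPolynomial ι k, ev (q.eval₂ φ' y) = q.eval₂ ψ (fun a => ev (y a)) := by
    intro q
    have h := eval₂_comp_left ev φ' y q
    have hc : ev.comp φ' = ψ := RingHom.ext fun a => hψ a
    rw [hc] at h
    exact h
  have hO : x ^ n + ∑ i : Fin n, (p i).eval₂ φ' y * x ^ (i : ℕ) = 0 := by
    apply Subtype.ext
    push_cast
    simp only [h1]
    exact hrel
  have := congrArg ev hO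
  simpa [h2] using this

/-- Transport of a dehomogenised certificate to the values at a point. -/
theorem eval_dehomCert (φ : k →+* F) (ψ : k →+* L) (O : Subring F) (ev : O →+* L)
    (hφ : ∀ a, φ a ∈ O) (hψ : ∀ a, ev ⟨φ a, hφ a⟩ = ψ a)
    (hloc : ∀ a : O, ev a ≠ 0 → IsUnit a)
    (s : ι → F) (t : F) (g : F) (hg : g ≠ 0) (u : ι → O) (w : O)
    (hs : ∀ i, s i = g * u i) (ht : t = g * w)
    (j : ι) (hj : ev (u j) ≠ 0) (n : ℕ) (p : Fin n → MvPolynomial ι k)
    (hrel : (t / s j) ^ n + ∑ i : Fin n,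
      (p i).eval₂ φ (fun a => s a / s j) * (t / s j) ^ (i : ℕ) = 0) :
    (ev w / ev (u j)) ^ n + ∑ i : Fin n,
      (p i).eval₂ ψ (fun a => ev (u a) / ev (u j)) * (ev w / ev (u j)) ^ (i : ℕ) = 0 := by
  obtain ⟨uj, huj⟩ := hloc (u j) hj
  have hujF : ((u j : O) : F) ≠ 0 := by
    intro h0
    apply hj
    have : u j = 0 := Subtype.ext h0
    rw [this, map_zero]
  have hinv : ((↑uj⁻¹ : O) : F) = ((u j : O) : F)⁻¹ := by
    have h1 : (u j) * (↑uj⁻¹ : O) = 1 := by rw [← huj]; exact uj.mul_inv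
    have h2 : ((u j : O) : F) * ((↑uj⁻¹ : O) : F) = 1 := by exact_mod_cast congrArg Subtype.val h1
    exact eq_inv_of_mul_eq_one_right h2
  have hevinv : ev (↑uj⁻¹ : O) = (ev (u j))⁻¹ := by
    have h1 : (u j) * (↑uj⁻¹ : O) = 1 := by rw [← huj]; exact uj.mul_inv
    have h2 : ev (u j) * ev (↑uj⁻¹ : O) = 1 := by rw [← map_mul, h1, map_one]
    exact eq_inv_of_mul_eq_one_right h2
  have hy : ∀ a, s a / s j = ((u a * (↑uj⁻¹ : O) : O) : F) := by
    intro a
    rw [hs a, hs j, Subring.coe_mul, hinv]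
    field_simp
  have hx : t / s j = ((w * (↑uj⁻¹ : O) : O) : F) := by
    rw [ht, hs j, Subring.coe_mul, hinv]
    field_simp
  have hrel' : ((w * (↑uj⁻¹ : O) : O) : F) ^ n + ∑ i : Fin n,
      (p i).eval₂ φ (fun a => ((u a * (↑uj⁻¹ : O) : O) : F)) *
        ((w * (↑uj⁻¹ : O) : O) : F) ^ (i : ℕ) = 0 := by
    rw [← hx]
    have : (fun a => ((u a * (↑uj⁻¹ : O) : O) : F)) = fun a => s a / s j :=
      funext fun a => (hy a).symm
    rw [this]
    exact hrel
  have h := eval_relation φ ψ O ev hφ hψ (fun a => u a * (↑uj⁻¹ : O)) (w * (↑uj⁻¹ : O)) n p hrel'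
  simp only [map_mul, hevinv] at h
  simpa [div_eq_mul_inv] using h

end Fermat.Agent.MW.KL39
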