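/-
Brick KL-A (programme MW, S17), file 6: the KEY LEMMA in FUNCTION-FIELD form.

`Ω` : a field of characteristic `0`, algebraic over `ℚ` (e.g. `AlgebraicClosure ℚ`);
`F` : a field with a ring hom `φ : Ω →+* F` (the function field of a variety over `Ω`);
`s : ι → F`, `t : ι' → F` : two finite families of elements of `F`.

INTEGRALITY HYPOTHESIS `(s, t)`: for all `j, l` with `s j ≠ 0`, `t l / s j` is integral over the
subring generated by `φ(Ω)` and the `s i / s j` — exactly the conclusion of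
`Fermat.Agent.MW.HM73.div_mem_integralClosure`.

EVALUATION DATA: a subring `O ≤ F` containing `φ(Ω)`, a LOCAL ring hom `ev : O →+* Ω` with
`ev ∘ φ = id`, a "local generator" `g ≠ 0` with `s i = g * u i`, `t l = g * w l`, `u i, w l ∈ O`.
VALUES: `σ i = ev (u i)`, `τ l = ev (w l)`.

`exists_const_absLogHeight_sumElim_le` : there is a constant `C`, depending only on `(φ, s, t)`,
with `absLogHeight (Sum.elim σ τ) ≤ absLogHeight σ + C` for all evaluation data with `σ ≠ 0`.
`exists_const_absLogHeight_le` : the same for `absLogHeight τ`.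
`exists_const_abs_sub_le` : if the integrality hypothesis holds for `(s, t)` and for `(t, s)`, then
`|absLogHeight σ - absLogHeight τ| ≤ C` for all evaluation data with `σ ≠ 0` and `τ ≠ 0`.
-/
import Fermat.Agent.MW.KL39.Abs
import Fermat.Agent.MW.KL39.Cert
import Fermat.Agent.MW.KL39.Eval

namespace Fermat.Agent.MW.KL39

open MvPolynomial Height Fermat.Agent.MW.AbsHeightDef10

variable {Ω F : Type*} [Field Ω] [CharZero Ω] [Algebra.IsAlgebraic ℚ Ω] [Field F]
variable {ι ι' : Type*} [Finite ι] [Finite ι']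

/-- KEY LEMMA, function-field form, one direction, for the concatenated tuple. -/
theorem exists_const_absLogHeight_sumElim_le (φ : Ω →+* F) (s : ι → F) (t : ι' → F)
    (hint : ∀ j l, s j ≠ 0 → t l / s j ∈ integralClosure
      (Subring.closure (Set.range φ ∪ Set.range fun i => s i / s j)) F) :
    ∃ C : ℝ, ∀ (O : Subring F) (ev : O →+* Ω) (hφ : ∀ a, φ a ∈ O)
      (_hψ : ∀ a, ev ⟨φ a, hφ a⟩ = a) (_hloc : ∀ a : O, ev a ≠ 0 → IsUnit a)
      (g : F) (_hg : g ≠ 0) (u : ι → O) (w : ι' → O)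
      (_hs : ∀ i, s i = g * u i) (_ht : ∀ l, t l = g * w l),
      (fun i => ev (u i)) ≠ 0 →
      absLogHeight (Sum.elim (fun i => ev (u i)) (fun l => ev (w l))) ≤
        absLogHeight (fun i => ev (u i)) + C := by
  classical
  obtain ⟨n, p, hcert⟩ := exists_dehomCert_family φ s t hint
  -- the coefficient tuple
  let κ := Option (Σ (j : ι) (l : ι') (i : Fin (n j l)), ↥(p j l i).support)
  let c : κ → Ω := fun a => match a with
    | none => 1
    | some ⟨j, l, i, m⟩ => (p j l i).coeff m.1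
  have hc1 : ∃ a, c a = 1 := ⟨none, rfl⟩
  have hc : ∀ j l i, ∀ m ∈ (p j l i).support, ∃ a, c a = (p j l i).coeff m :=
    fun j l i m hm => ⟨some ⟨j, l, i, ⟨m, hm⟩⟩, rfl⟩
  -- the number of monomials
  obtain ⟨R0, hR0⟩ : ∃ R0 : ℕ, ∀ x : ι × ι',
      ∑ i : Fin (n x.1 x.2), (p x.1 x.2 i).support.card ≤ R0 := by
    obtain ⟨R0, hR0⟩ := (Set.finite_range fun x : ι × ι' =>
      ∑ i : Fin (n x.1 x.2), (p x.1 x.2 i).support.card).bddAbove
    exact ⟨R0, fun x => hR0 ⟨x, rfl⟩⟩
  set R : ℕ := max 1 R0 with hRdef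
  have hR1 : 1 ≤ R := le_max_left _ _
  have hR : ∀ j l, ∑ i : Fin (n j l), (p j l i).support.card ≤ R :=
    fun j l => (hR0 (j, l)).trans (le_max_right _ _)
  refine ⟨Real.log R + absLogHeight c, ?_⟩
  intro O ev hφ hψ hloc g hg u w hs ht hσ
  have hrel : ∀ j l, ev (u j) ≠ 0 → (ev (w l) / ev (u j)) ^ n j l +
      ∑ i : Fin (n j l), (p j l i).eval (fun a => ev (u a) / ev (u j)) *
        (ev (w l) / ev (u j)) ^ (i : ℕ) = 0 := by
    intro j l hj
    have huj : ((u j : O) : F) ≠ 0 := by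
      intro h0
      apply hj
      have : u j = 0 := Subtype.ext h0
      rw [this, map_zero]
    have hsj : s j ≠ 0 := by
      rw [hs j]
      exact mul_ne_zero hg huj
    exact eval_dehomCert φ (RingHom.id Ω) O ev hφ hψ hloc s (t l) g hg u (w l) hs (ht l) j hj
      (n j l) (p j l) (hcert j l hsj)
  have key := absLogHeight_sumElim_le_of_dehomCert (fun i => ev (u i)) (fun l => ev (w l)) hσ
    n p hrel c hc1 hc R hR1 hR
  linarith

/-- KEY LEMMA, function-field form, one direction. -/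
theorem exists_const_absLogHeight_le (φ : Ω →+* F) (s : ι → F) (t : ι' → F)
    (hint : ∀ j l, s j ≠ 0 → t l / s j ∈ integralClosure
      (Subring.closure (Set.range φ ∪ Set.range fun i => s i / s j)) F) :
    ∃ C : ℝ, ∀ (O : Subring F) (ev : O →+* Ω) (hφ : ∀ a, φ a ∈ O)
      (_hψ : ∀ a, ev ⟨φ a, hφ a⟩ = a) (_hloc : ∀ a : O, ev a ≠ 0 → IsUnit a)
      (g : F) (_hg : g ≠ 0) (u : ι → O) (w : ι' → O)
      (_hs : ∀ i, s i = g * u i) (_ht : ∀ l, t l = g * w l),
      (fun i => ev (u i)) ≠ 0 →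
      absLogHeight (fun l => ev (w l)) ≤ absLogHeight (fun i => ev (u i)) + C := by
  obtain ⟨C, hC⟩ := exists_const_absLogHeight_sumElim_le φ s t hint
  refine ⟨C, fun O ev hφ hψ hloc g hg u w hs ht hσ => ?_⟩
  have h := absLogHeight_comp_le (Sum.inr : ι' → ι ⊕ ι')
    (Sum.elim (fun i => ev (u i)) (fun l => ev (w l)))
  rw [Sum.elim_comp_inr] at h
  exact h.trans (hC O ev hφ hψ hloc g hg u w hs ht hσ)

/-- KEY LEMMA, function-field form, two-sided: two families generating the same invertible sheaf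
have heights differing by a bounded amount. -/
theorem exists_const_abs_sub_le (φ : Ω →+* F) (s : ι → F) (t : ι' → F)
    (hst : ∀ j l, s j ≠ 0 → t l / s j ∈ integralClosure
      (Subring.closure (Set.range φ ∪ Set.range fun i => s i / s j)) F)
    (hts : ∀ l j, t l ≠ 0 → s j / t l ∈ integralClosure
      (Subring.closure (Set.range φ ∪ Set.range fun i => t i / t l)) F) :
    ∃ C : ℝ, ∀ (O : Subring F) (ev : O →+* Ω) (hφ : ∀ a, φ a ∈ O)
      (_hψ : ∀ a, ev ⟨φ a, hφ a⟩ = a) (_hloc : ∀ a : O, ev a ≠ 0 → IsUnit a)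
      (g : F) (_hg : g ≠ 0) (u : ι → O) (w : ι' → O)
      (_hs : ∀ i, s i = g * u i) (_ht : ∀ l, t l = g * w l),
      (fun i => ev (u i)) ≠ 0 → (fun l => ev (w l)) ≠ 0 →
      |absLogHeight (fun i => ev (u i)) - absLogHeight (fun l => ev (w l))| ≤ C := by
  obtain ⟨C1, hC1⟩ := exists_const_absLogHeight_le φ s t hst
  obtain ⟨C2, hC2⟩ := exists_const_absLogHeight_le φ t s hts
  refine ⟨max C1 C2, fun O ev hφ hψ hloc g hg u w hs ht hσ hτ => ?_⟩
  have h1 := hC1 O ev hφ hψ hloc g hg u w hs ht hσ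
  have h2 := hC2 O ev hφ hψ hloc g hg w u ht hs hτ
  rw [abs_le]
  constructor
  · have := le_max_left C1 C2
    linarith
  · have := le_max_right C1 C2
    linarith

end Fermat.Agent.MW.KL39
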