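/-
Brick KL-A (programme MW, S17), file 7: `Algebra`/`aeval` form of `Cert.lean`
(request N2 of helper73, HM73/KLFamily).
-/
import Fermat.Agent.MW.KL39.Cert

namespace Fermat.Agent.MW.KL39

open MvPolynomial

variable {k K : Type*} [CommRing k] [Field K] [Algebra k K] {ι : Type*}

/-- (N2) Integrality over the subring generated by `k` and the `u i` gives a monic relation with
coefficients `aeval u (p i)`, `p i : MvPolynomial ι k`. -/
theorem exists_dehomCert_aeval (u : ι → K) (z : K)
    (hz : z ∈ integralClosure (Subring.closure (Set.range (algebraMap k K) ∪ Set.range u)) K) :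
    ∃ (n : ℕ) (p : Fin n → MvPolynomial ι k),
      z ^ n + ∑ i : Fin n, aeval u (p i) * z ^ (i : ℕ) = 0 := by
  obtain ⟨n, p, hp⟩ := exists_dehomCert_of_mem_integralClosure (algebraMap k K) u z hz
  exact ⟨n, p, by simpa only [aeval_def] using hp⟩

/-- (N2), family form: `s : ι → K`, `t : ι' → K`; certificates for all pairs `(j, l)` with
`s j ≠ 0`. -/
theorem exists_dehomCert_family_aeval {ι' : Type*} (s : ι → K) (t : ι' → K)
    (h : ∀ j l, s j ≠ 0 → t l / s j ∈ integralClosure
      (Subring.closure (Set.range (algebraMap k K) ∪ Set.range fun i => s i / s j)) K) :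
    ∃ (n : ι → ι' → ℕ) (p : ∀ j l, Fin (n j l) → MvPolynomial ι k), ∀ j l, s j ≠ 0 →
      (t l / s j) ^ n j l + ∑ i : Fin (n j l),
        aeval (fun a => s a / s j) (p j l i) * (t l / s j) ^ (i : ℕ) = 0 := by
  obtain ⟨n, p, hp⟩ := exists_dehomCert_family (algebraMap k K) s t h
  exact ⟨n, p, fun j l hj => by simpa only [aeval_def] using hp j l hj⟩

end Fermat.Agent.MW.KL39
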